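import Fermat.Agent.RIB.Theta
import Fermat.Agent.S56.Tame.Main
import Fermat.Agent.GAL.S29Wire
import Fermat.Agent.S36.Top.CardJ

/-!
# RIB / GROW : a generator of the image of inertia on a finite Galois stable group of torsion points
-/

set_option autoImplicit false
set_option linter.unusedSectionVars false

noncomputable section

open AlgebraicCurve ModularCurve

namespace Fermat.Agent.RIB

open Fermat.Agent.GAL Fermat.Agent.GAL.PC

local notation "Qbar" => AlgebraicClosure ℚ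
local notation "GQ" => (AlgebraicClosure ℚ ≃ₐ[ℚ] AlgebraicClosure ℚ)

/-- the `m`-torsion of `J₀(N)` is finite. -/
theorem finite_torsion_JZero (N : ℕ) [NeZero N] (m : ℕ) (hm : m ≠ 0) :
    {x : JZero N | m • x = 0}.Finite := by
  have h := S36.Top.card_torsion_JZero N m (Nat.pos_of_ne_zero hm)
  have hpos : 0 < Nat.card (Pic0.torsion S24.Kb (S24.FN N) m) := by
    rw [h]; exact pow_pos (Nat.pos_of_ne_zero hm) _
  have hfin : Finite (Pic0.torsion S24.Kb (S24.FN N) m) := (Nat.card_pos_iff.1 hpos).2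
  have : {x : JZero N | m • x = 0} = ((Pic0.torsion S24.Kb (S24.FN N) m : AddSubgroup _) : Set _) := by
    ext x
    simp [Pic0.torsion]
  rw [this]
  exact Set.toFinite _

/-- one finite extension of `ℚ` over which all the `m`-torsion points are defined. -/
theorem exists_level_torsion (N : ℕ) [NeZero N] (m : ℕ) (hm : m ≠ 0) :
    ∃ L : IntermediateField ℚ Qbar, FiniteDimensional ℚ L ∧
      ∀ σ : GQ, (∀ y ∈ L, σ y = y) → ∀ x : JZero N, m • x = 0 → σ • x = x := by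
  classical
  have hfin := finite_torsion_JZero N m hm
  haveI : Finite {x : JZero N | m • x = 0} := hfin
  choose Lx hLx1 hLx2 using fun x : {x : JZero N | m • x = 0} => openStab N m hm x.1 x.2
  refine ⟨⨆ x, Lx x, ?_, fun σ hσ x hx => hLx2 ⟨x, hx⟩ σ fun y hy => hσ y ?_⟩
  · haveI := hLx1
    exact IntermediateField.finiteDimensional_iSup_of_finite
  · exact (le_iSup Lx ⟨x, hx⟩) hy

/-- **[TAU0]** -/
theorem exists_tau0 {N l : ℕ} [NeZero N] (hl : l.Prime) {A : ValuationSubring Qbar}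
    (hA : A.LiesOverPrime l) (X : AddSubgroup (JZero N))
    (hst : ∀ τ ∈ A.inertiaSubgroupIn ℚ, ∀ x ∈ X, τ • x ∈ X) (m : ℕ) (hm : m ≠ 0)
    (hXm : ∀ x ∈ X, m • x = 0) (P : ℕ) (hP : Nat.Coprime P l)
    (hord : ∀ τ ∈ A.inertiaSubgroupIn ℚ, ∀ x ∈ X, τ ^ P • x = x) :
    ∃ τ₀ ∈ A.inertiaSubgroupIn ℚ, ∀ x ∈ X, τ₀ • x = x →
      ∀ τ ∈ A.inertiaSubgroupIn ℚ, τ • x = x := by
  let h : ↥(A.inertiaSubgroupIn ℚ) →* Function.End X :=
    { toFun := fun τ x => ⟨(τ : GQ) • x.1, hst τ τ.2 x.1 x.2⟩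
      map_one' := by
        funext x
        exact Subtype.ext (one_smul GQ x.1)
      map_mul' := fun τ τ' => by
        funext x
        exact Subtype.ext (mul_smul (τ : GQ) (τ' : GQ) x.1) }
  have hpow : ∀ (τ : ↥(A.inertiaSubgroupIn ℚ)) (n : ℕ) (x : X),
      (((h τ ^ n) x : X) : JZero N) = (τ : GQ) ^ n • x.1 := by
    intro τ n x
    rw [← map_pow]
    rfl
  obtain ⟨L, hL1, hL2⟩ := exists_level_torsion N m hm
  obtain ⟨σ₀, hσ₀⟩ := S56.tame_cyclic hl hA h
    ⟨L, hL1, fun σ hσ => by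
      funext x
      exact Subtype.ext (hL2 σ hσ x.1 (hXm x.1 x.2))⟩ P hP
    (fun σ => by
      funext x
      apply Subtype.ext
      rw [hpow]
      exact hord σ σ.2 x.1 x.2)
  refine ⟨σ₀, σ₀.2, fun x hx h0 τ hτ => ?_⟩
  obtain ⟨n, hn⟩ := hσ₀ ⟨τ, hτ⟩
  have h1 : (((h ⟨τ, hτ⟩) ⟨x, hx⟩ : X) : JZero N) = (σ₀ : GQ) ^ n • x := by
    rw [hn, hpow]
  have h2 : ∀ n : ℕ, (σ₀ : GQ) ^ n • x = x := by
    intro n
    induction n with
    | zero => rw [pow_zero, one_smul]
    | succ n ih => rw [pow_succ, mul_smul, h0, ih]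
  rw [h2] at h1
  exact h1

end Fermat.Agent.RIB
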