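import Fermat.Agent.RIB.Grow.Tau
import Fermat.Agent.RIB.ThetaAbs
import Fermat.Agent.S19.Div

/-!
# RIB / GROW : the `θ`-part of `J₀(N)[p^∞]` is `p`-divisible
-/

set_option autoImplicit false
set_option linter.unusedSectionVars false

noncomputable section

open AlgebraicCurve ModularCurve

namespace Fermat.Agent.RIB

open Fermat.Agent.GAL Fermat.Agent.GAL.PC

local notation "Qbar" => AlgebraicClosure ℚ

theorem jzero_divisible (N : ℕ) [NeZero N] (n : ℕ) (hn : 0 < n) (x : JZero N) :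
    ∃ y : JZero N, n • y = x :=
  haveI : S27.IsFF S24.Kb (S24.FN N) :=
    ⟨⟨S24.jF N, S24.isFiniteParam_jF_of N (S24.CPAlt.charpolyCoeff N)⟩⟩
  S19.pic0_divisible Qbar (modularFunctionFieldBar N)
    ⟨(IsAlgClosed.lift (R := ℚ) (S := Qbar) (M := ℂ)).toRingHom⟩ n hn x

theorem hk_comm (N : ℕ) [NeZero N] (θ : ℕ → ℤ) (r r' : Nat.Primes) :
    hk N θ r * hk N θ r' = hk N θ r' * hk N θ r := by
  have h := HeckeComm.heckeOperatorsCommuteBar N r r'
  have h1 : Commute (heckeOperatorBar N r) (heckeOperatorBar N r') := h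
  have h2 : Commute (hk N θ r) (hk N θ r') :=
    (h1.sub_right (Int.commute_cast _ _)).sub_left
      ((Int.cast_commute _ _).sub_right (Int.cast_commute _ _))
  exact h2

/-- the `θ`-part is `p`-divisible. -/
theorem thetaPart_divisible (N : ℕ) [NeZero N] {p : ℕ} (hp : 0 < p) (S : Set ℕ) (θ : ℕ → ℤ)
    (x : JZero N) (hx : x ∈ thetaPart N p S θ) : ∃ y ∈ thetaPart N p S θ, p • y = x := by
  obtain ⟨k, hk'⟩ := hx.1
  obtain ⟨y₀, hy₀⟩ := jzero_divisible N p hp x
  let Z : AddSubgroup (JZero N) := (nsmulAddMonoidHom (p ^ (k + 1))).ker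
  haveI : Finite Z := finite_torsion_JZero N (p ^ (k + 1)) (pow_ne_zero _ hp.ne')
  have hy₀Z : y₀ ∈ Z := by
    show p ^ (k + 1) • y₀ = 0
    rw [pow_succ, mul_smul, hy₀, hk']
  obtain ⟨v', hv'1, hv'2, hv'3⟩ := Fit.exists_lift_family (κ := Unit)
    (ι := {r : Nat.Primes // (r : ℕ) ∉ S})
    (fun r => hk N θ r.1) (fun r => hk N θ r.1) (fun r r' => hk_comm N θ r.1 r'.1)
    (fun r r' => hk_comm N θ r.1 r'.1) Z
    (fun r z hz => by
      show p ^ (k + 1) • hk N θ r.1 z = 0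
      rw [← map_nsmul, show p ^ (k + 1) • z = 0 from hz, map_zero])
    (fun _ => nsmulAddMonoidHom p)
    (fun _ r z _ => by
      show p • hk N θ r.1 z = hk N θ r.1 (p • z)
      rw [map_nsmul])
    (fun _ => y₀) (fun _ => hy₀Z)
    (fun r => by
      obtain ⟨m, hm⟩ := hx.2 r.1 r.2
      refine ⟨m, ?_⟩
      rw [Finset.univ_unique, Finset.sum_singleton]
      show (hk N θ r.1 ^ m) (p • y₀) = 0
      rw [hy₀, hm])
  refine ⟨v' (), ⟨⟨k + 1, hv'1 ()⟩, fun r hr => hv'2 () ⟨r, hr⟩⟩, ?_⟩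
  rw [Finset.univ_unique, Finset.sum_singleton, Finset.sum_singleton] at hv'3
  exact hv'3.trans hy₀

end Fermat.Agent.RIB
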