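/-
(GROW), abstract assembly.  `V = J0(L)[p^∞]_θ`, `W = J0(L l²)[p^∞]_θ`, `io i` the three degeneracy
pull-backs, `Pi i` the three push-forwards, `τ` a generator of the (tame, pro-`p`) inertia at `l`.
Mathlib + `RIB/GrowAlg.lean` (`grow_abs`) only.
-/
import Fermat.Agent.RIB.GrowAlg

namespace Fermat.Agent.RIB.Grow

section Tors

variable {V : Type*} [AddCommGroup V]

/-- `V[p]` finite implies `V[p^k]` finite. -/
theorem finite_tors_pow (p : ℕ) (hfin : {v : V | p • v = 0}.Finite) (k : ℕ) :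
    {v : V | p ^ k • v = 0}.Finite := by
  induction k with
  | zero =>
    have : {v : V | p ^ 0 • v = 0} = {0} := by
      ext v; simp
    rw [this]; exact Set.finite_singleton 0
  | succ k ih =>
    refine Set.Finite.of_finite_fibers (fun v : V => p • v) ?_ ?_
    · refine ih.subset ?_
      rintro _ ⟨v, hv, rfl⟩
      have hv' : p ^ (k + 1) • v = 0 := hv
      show p ^ k • (p • v) = 0
      rw [← mul_smul, ← pow_succ]; exact hv'
    · rintro x -
      by_cases hne : ({v : V | p ^ (k + 1) • v = 0} ∩ (fun v : V => p • v) ⁻¹' {x}).Nonempty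
      · obtain ⟨v0, -, hv0⟩ := hne
        have hv0' : p • v0 = x := hv0
        refine (hfin.image (fun w => v0 + w)).subset ?_
        rintro v ⟨-, hv⟩
        have hv' : p • v = x := hv
        refine ⟨v - v0, ?_, by simp⟩
        show p • (v - v0) = 0
        rw [smul_sub, hv', hv0', sub_self]
      · rw [Set.not_nonempty_iff_eq_empty] at hne
        rw [hne]; exact Set.finite_empty

/-- In a `p`-primary group with `V[p]` finite, `V[N]` is finite for all `N ≠ 0`. -/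
theorem finite_tors_of_ne_zero {p : ℕ} (hp : p.Prime) (htors : ∀ v : V, ∃ k, p ^ k • v = 0)
    (hfin : {v : V | p • v = 0}.Finite) {N : ℕ} (hN : N ≠ 0) :
    {v : V | N • v = 0}.Finite := by
  refine (finite_tors_pow p hfin N).subset ?_
  intro v hv
  have hv' : N • v = 0 := hv
  obtain ⟨k, hk⟩ := htors v
  have h1 : addOrderOf v ∣ N := addOrderOf_dvd_of_nsmul_eq_zero hv'
  have h2 : addOrderOf v ∣ p ^ k := addOrderOf_dvd_of_nsmul_eq_zero hk
  obtain ⟨i, -, hi⟩ := (Nat.dvd_prime_pow hp).1 h2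
  have h3 : p ^ i ≤ N := Nat.le_of_dvd (Nat.pos_of_ne_zero hN) (hi ▸ h1)
  have h4 : i ≤ N := by
    by_contra hcon
    rw [not_le] at hcon
    have : N < p ^ N := Nat.lt_pow_self hp.one_lt
    have h5 : p ^ N ≤ p ^ i := Nat.pow_le_pow_right hp.pos hcon.le
    omega
  show p ^ N • v = 0
  exact addOrderOf_dvd_iff_nsmul_eq_zero.1 (hi ▸ pow_dvd_pow p h4)

/-- An additive endomorphism of a `p`-primary group that is injective on `V[p]` is injective. -/
theorem eq_zero_of_inj_on_tors {V' : Type*} [AddCommGroup V'] {p : ℕ}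
    (htors : ∀ v : V, ∃ k, p ^ k • v = 0) (f : V →+ V')
    (hf : ∀ v, p • v = 0 → f v = 0 → v = 0) (v : V) (hv : f v = 0) : v = 0 := by
  obtain ⟨k, hk⟩ := htors v
  induction k generalizing v with
  | zero => simpa using hk
  | succ k ih =>
    have h1 : p ^ k • v = 0 := by
      refine hf _ ?_ ?_
      · rw [← mul_smul, ← pow_succ']; exact hk
      · rw [map_nsmul, hv, smul_zero]
    exact ih v hv h1

end Tors

variable {V W : Type*} [AddCommGroup V] [AddCommGroup W]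

/-- The hypotheses of the abstract (GROW). -/
structure Hyp (p l n : ℕ) (T : V →+ V) (io : Fin 3 → V →+ W) (Pi : Fin 3 → W →+ V)
    (τ : W →+ W) : Prop where
  hp : p.Prime
  hl : 1 < l
  hn : 1 ≤ n
  hdvd : p ^ n ∣ l - 1
  Vdiv : ∀ v : V, ∃ w, p • w = v
  Vtors : ∀ v : V, ∃ k, p ^ k • v = 0
  Vfin : {v : V | p • v = 0}.Finite
  Wdiv : ∀ x : W, ∃ y, p • y = x
  Wtors : ∀ x : W, ∃ k, p ^ k • x = 0
  Wfin : {x : W | p • x = 0}.Finite
  /-- `Π ∘ ι = A`: the nine entries. -/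
  diag : ∀ i v, Pi i (io i v) = (l * (l + 1)) • v
  adj01 : ∀ v, Pi 0 (io 1 v) = l • T v
  adj10 : ∀ v, Pi 1 (io 0 v) = l • T v
  adj12 : ∀ v, Pi 1 (io 2 v) = l • T v
  adj21 : ∀ v, Pi 2 (io 1 v) = l • T v
  far02 : ∀ v, Pi 0 (io 2 v) = T (T v) - (l + 1) • v
  far20 : ∀ v, Pi 2 (io 0 v) = T (T v) - (l + 1) • v
  /-- Ihara: `ι` is injective (on `p`-torsion is enough). -/
  inj : ∀ v : Fin 3 → V, (∀ i, p • v i = 0) → io 0 (v 0) + io 1 (v 1) + io 2 (v 2) = 0 →
    ∀ i, v i = 0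
  /-- (CTRL) for `p^k`: inertia-fixed new classes are old. -/
  fix : ∀ x, τ x = x → (∀ i, Pi i x = 0) →
    ∃ v : Fin 3 → V, x = io 0 (v 0) + io 1 (v 1) + io 2 (v 2)
  fix_io : ∀ i v, τ (io i v) = io i v
  Pi_tau : ∀ i x, Pi i (τ x) = Pi i x
  /-- Weil duality: `Π` is onto on `p`-torsion. -/
  weil : ∀ v : Fin 3 → V, (∀ i, p • v i = 0) → ∃ x, p • x = 0 ∧ ∀ i, Pi i x = v i
  ord : ∀ x, τ^[p ^ n] x = x
  /-- `(l+1)² - T²` is injective on `V[p]`. -/
  unit : ∀ v, p • v = 0 → ((l + 1) ^ 2) • v - T (T v) = 0 → v = 0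

namespace Hyp

variable {p l n : ℕ} {T : V →+ V} {io : Fin 3 → V →+ W} {Pi : Fin 3 → W →+ V} {τ : W →+ W}

/-- the new part `⋂ ker Π_i`. -/
def Wnew (Pi : Fin 3 → W →+ V) : AddSubgroup W := ⨅ i, (Pi i).ker

theorem mem_Wnew {x : W} : x ∈ Wnew Pi ↔ ∀ i, Pi i x = 0 := by
  simp [Wnew, AddSubgroup.mem_iInf, AddMonoidHom.mem_ker]

/-- `x_v = ι(v, -Tv, v)`. -/
def xv (T : V →+ V) (io : Fin 3 → V →+ W) : V →+ W :=
  io 0 - (io 1).comp T + io 2

theorem xv_apply (v : V) : xv T io v = io 0 v - io 1 (T v) + io 2 v := rfl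

theorem unit' (h : Hyp p l n T io Pi τ) (v : V) (hv : ((l + 1) ^ 2) • v - T (T v) = 0) : v = 0 := by
  have := eq_zero_of_inj_on_tors (p := p) h.Vtors
    (nsmulAddMonoidHom ((l + 1) ^ 2) - T.comp T : V →+ V) (fun v h1 h2 => h.unit v h1 h2) v hv
  exact this

theorem inj' (h : Hyp p l n T io Pi τ) (v : Fin 3 → V)
    (hv : io 0 (v 0) + io 1 (v 1) + io 2 (v 2) = 0) : ∀ i, v i = 0 := by
  have htors : ∀ v : Fin 3 → V, ∃ k, p ^ k • v = 0 := by
    intro v
    obtain ⟨k0, h0⟩ := h.Vtors (v 0)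
    obtain ⟨k1, h1⟩ := h.Vtors (v 1)
    obtain ⟨k2, h2⟩ := h.Vtors (v 2)
    refine ⟨k0 + k1 + k2, ?_⟩
    funext i
    fin_cases i
    · show p ^ (k0 + k1 + k2) • v 0 = 0
      rw [show k0 + k1 + k2 = (k1 + k2) + k0 by ring, pow_add, mul_smul, h0, smul_zero]
    · show p ^ (k0 + k1 + k2) • v 1 = 0
      rw [show k0 + k1 + k2 = (k0 + k2) + k1 by ring, pow_add, mul_smul, h1, smul_zero]
    · show p ^ (k0 + k1 + k2) • v 2 = 0
      rw [pow_add, mul_smul, h2, smul_zero]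
  have := eq_zero_of_inj_on_tors (p := p) htors
    ((io 0).comp (_root_.Pi.evalAddMonoidHom (fun _ : Fin 3 => V) 0) +
      (io 1).comp (_root_.Pi.evalAddMonoidHom (fun _ : Fin 3 => V) 1) +
      (io 2).comp (_root_.Pi.evalAddMonoidHom (fun _ : Fin 3 => V) 2) : (Fin 3 → V) →+ W)
    (fun v h1 h2 => funext (h.inj v (fun i => congrFun h1 i) h2)) v hv
  intro i
  exact congrFun this i

/-- `x_v` is new when `(l-1) v = 0`. -/
theorem xv_mem (h : Hyp p l n T io Pi τ) (v : V) (hv : (l - 1) • v = 0) :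
    xv T io v ∈ Wnew Pi := by
  obtain ⟨m, rfl⟩ : ∃ m, l = m + 1 := ⟨l - 1, by have := h.hl; omega⟩
  have hv' : m • v = 0 := by simpa using hv
  have hT : m • T v = 0 := by rw [← map_nsmul, hv', map_zero]
  have hTT : m • T (T v) = 0 := by rw [← map_nsmul, hT, map_zero]
  rw [mem_Wnew]
  intro i
  rw [xv_apply, map_add, map_sub]
  fin_cases i
  · show Pi 0 (io 0 v) - Pi 0 (io 1 (T v)) + Pi 0 (io 2 v) = 0
    rw [h.diag, h.adj01, h.far02]
    have : ((m + 1) * (m + 1 + 1)) • v - (m + 1) • T (T v) + (T (T v) - (m + 1 + 1) • v)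
        = (m + 2) • (m • v) - m • T (T v) := by module
    rw [this, hv', hTT]; simp
  · show Pi 1 (io 0 v) - Pi 1 (io 1 (T v)) + Pi 1 (io 2 v) = 0
    rw [h.diag, h.adj10, h.adj12]
    have : (m + 1) • T v - ((m + 1) * (m + 1 + 1)) • T v + (m + 1) • T v
        = - ((m + 1) • (m • T v)) := by module
    rw [this, hT]; simp
  · show Pi 2 (io 0 v) - Pi 2 (io 1 (T v)) + Pi 2 (io 2 v) = 0
    rw [h.diag, h.adj21, h.far20]
    have : (T (T v) - (m + 1 + 1) • v) - (m + 1) • T (T v) + ((m + 1) * (m + 1 + 1)) • v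
        = (m + 2) • (m • v) - m • T (T v) := by module
    rw [this, hv', hTT]; simp

/-- elimination: `ker A` is killed by `(l-1) l (l+1)`. -/
theorem ker_A (h : Hyp p l n T io Pi τ) (v : Fin 3 → V)
    (hv : ∀ i, Pi i (io 0 (v 0) + io 1 (v 1) + io 2 (v 2)) = 0) :
    ∀ i, ((l - 1) * l * (l + 1)) • v i = 0 := by
  obtain ⟨m, rfl⟩ : ∃ m, l = m + 1 := ⟨l - 1, by have := h.hl; omega⟩
  have E0 := hv 0
  have E1 := hv 1
  have E2 := hv 2
  rw [map_add, map_add, h.diag, h.adj01, h.far02] at E0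
  rw [map_add, map_add, h.diag, h.adj10, h.adj12] at E1
  rw [map_add, map_add, h.diag, h.adj21, h.far20] at E2
  -- step 1
  have h02 : v 0 - v 2 = 0 := by
    refine h.unit' _ ?_
    rw [map_sub, map_sub]
    have : ((m + 1 + 1) ^ 2) • (v 0 - v 2) - (T (T (v 0)) - T (T (v 2)))
        = (((m + 1) * (m + 1 + 1)) • v 0 + (m + 1) • T (v 1) + (T (T (v 2)) - (m + 1 + 1) • v 2))
          - (T (T (v 0)) - (m + 1 + 1) • v 0 + (m + 1) • T (v 1)
            + ((m + 1) * (m + 1 + 1)) • v 2) := by module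
    rw [this, E0, E2, sub_zero]
  have h2 : v 2 = v 0 := (sub_eq_zero.1 h02).symm
  rw [h2] at E0 E1
  -- step 2
  have TE1 := congrArg T E1
  rw [map_add, map_add, map_nsmul, map_nsmul, map_zero] at TE1
  have h0 : m • v 0 = 0 := by
    refine h.unit' _ ?_
    rw [map_nsmul, map_nsmul]
    have : ((m + 1 + 1) ^ 2) • (m • v 0) - m • T (T (v 0))
        = (m + 2) • (((m + 1) * (m + 1 + 1)) • v 0 + (m + 1) • T (v 1)
            + (T (T (v 0)) - (m + 1 + 1) • v 0))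
          - ((m + 1) • T (T (v 0)) + ((m + 1) * (m + 1 + 1)) • T (v 1)
            + (m + 1) • T (T (v 0))) := by module
    rw [this, E0, TE1]; simp
  have hT0 : m • T (v 0) = 0 := by rw [← map_nsmul, h0, map_zero]
  have h1 : (m * (m + 1) * (m + 1 + 1)) • v 1 = 0 := by
    have : (m * (m + 1) * (m + 1 + 1)) • v 1
        = m • ((m + 1) • T (v 0) + ((m + 1) * (m + 1 + 1)) • v 1 + (m + 1) • T (v 0))
          - (2 * (m + 1)) • (m • T (v 0)) := by module
    rw [this, E1, hT0]; simp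
  have h0' : (m * (m + 1) * (m + 1 + 1)) • v 0 = 0 := by
    rw [show m * (m + 1) * (m + 1 + 1) = ((m + 1) * (m + 1 + 1)) * m by ring, mul_smul, h0,
      smul_zero]
  intro i
  simp only [Nat.add_sub_cancel]
  fin_cases i
  · exact h0'
  · exact h1
  · show (m * (m + 1) * (m + 1 + 1)) • v 2 = 0
    rw [h2]; exact h0'

/-- `τ` restricted to the new part. -/
def tauNew (h : Hyp p l n T io Pi τ) : Wnew Pi →+ Wnew Pi :=
  (τ.comp (Wnew Pi).subtype).codRestrict (Wnew Pi) (fun x => by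
    rw [mem_Wnew]
    intro i
    have := mem_Wnew.1 x.2 i
    show Pi i (τ x) = 0
    rw [h.Pi_tau]; exact this)

theorem coe_tauNew (h : Hyp p l n T io Pi τ) (x : Wnew Pi) : ((h.tauNew x : Wnew Pi) : W) = τ x :=
  rfl

theorem coe_tauNew_iter (h : Hyp p l n T io Pi τ) (k : ℕ) (x : Wnew Pi) :
    (((h.tauNew)^[k] x : Wnew Pi) : W) = τ^[k] x := by
  induction k generalizing x with
  | zero => rfl
  | succ k ih => rw [Function.iterate_succ_apply, Function.iterate_succ_apply, ih, coe_tauNew]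

theorem tauNew_ord (h : Hyp p l n T io Pi τ) (x : Wnew Pi) : (h.tauNew)^[p ^ n] x = x :=
  Subtype.ext (by rw [coe_tauNew_iter, h.ord])

theorem Wnew_div (h : Hyp p l n T io Pi τ) (x : Wnew Pi) : ∃ y : Wnew Pi, p • y = x := by
  obtain ⟨y0, hy0⟩ := h.Wdiv x
  obtain ⟨z, hz, hz'⟩ := h.weil (fun i => Pi i y0) (fun i => by
    show p • Pi i y0 = 0
    rw [← map_nsmul, hy0]; exact mem_Wnew.1 x.2 i)
  refine ⟨⟨y0 - z, mem_Wnew.2 fun i => by rw [map_sub, hz' i, sub_self]⟩, Subtype.ext ?_⟩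
  show p • (y0 - z) = x
  rw [smul_sub, hz, hy0, sub_zero]

theorem Wnew_tors (h : Hyp p l n T io Pi τ) (x : Wnew Pi) : ∃ k, p ^ k • x = 0 := by
  obtain ⟨k, hk⟩ := h.Wtors x
  exact ⟨k, Subtype.ext hk⟩

theorem finite_fix (h : Hyp p l n T io Pi τ) : {x : Wnew Pi | h.tauNew x = x}.Finite := by
  have hN : (l - 1) * l * (l + 1) ≠ 0 := by
    have := h.hl
    have h1 : l - 1 ≠ 0 := by omega
    have h2 : l ≠ 0 := by omega
    exact mul_ne_zero (mul_ne_zero h1 h2) (by omega)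
  have hS := finite_tors_of_ne_zero h.hp h.Vtors h.Vfin hN
  have hfin : ((fun a : V × V × V => io 0 a.1 + io 1 a.2.1 + io 2 a.2.2) ''
      ({v : V | ((l - 1) * l * (l + 1)) • v = 0} ×ˢ {v : V | ((l - 1) * l * (l + 1)) • v = 0} ×ˢ
        {v : V | ((l - 1) * l * (l + 1)) • v = 0})).Finite :=
    (hS.prod (hS.prod hS)).image _
  refine Set.Finite.of_finite_image (f := fun x : Wnew Pi => (x : W)) (hfin.subset ?_)
    (Subtype.val_injective.injOn)
  rintro _ ⟨x, hx, rfl⟩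
  have hx' : τ x = x := congrArg Subtype.val hx
  obtain ⟨v, hv⟩ := h.fix x hx' (mem_Wnew.1 x.2)
  have hk := h.ker_A v (fun i => by rw [← hv]; exact mem_Wnew.1 x.2 i)
  exact ⟨(v 0, v 1, v 2), ⟨hk 0, hk 1, hk 2⟩, hv.symm⟩

/-- the subgroup `C = {x_v : (l-1) v = 0}` of the new part. -/
def Cgrp (T : V →+ V) (io : Fin 3 → V →+ W) (Pi : Fin 3 → W →+ V) (l : ℕ) :
    AddSubgroup (Wnew Pi) :=
  ((nsmulAddMonoidHom (l - 1) : V →+ V).ker.map (xv T io)).comap (Wnew Pi).subtype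

theorem mem_Cgrp {x : Wnew Pi} :
    x ∈ Cgrp T io Pi l ↔ ∃ v : V, (l - 1) • v = 0 ∧ xv T io v = x := by
  unfold Cgrp
  rw [AddSubgroup.mem_comap, AddSubgroup.mem_map]
  constructor
  · rintro ⟨v, hv, hx⟩
    exact ⟨v, hv, hx⟩
  · rintro ⟨v, hv, hx⟩
    exact ⟨v, hv, hx⟩

theorem tau_xv (h : Hyp p l n T io Pi τ) (v : V) : τ (xv T io v) = xv T io v := by
  rw [xv_apply, map_add, map_sub, h.fix_io, h.fix_io, h.fix_io]

theorem Cgrp_fix (h : Hyp p l n T io Pi τ) (x : Wnew Pi) (hx : x ∈ Cgrp T io Pi l) :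
    h.tauNew x = x := by
  obtain ⟨v, -, hv⟩ := mem_Cgrp.1 hx
  refine Subtype.ext ?_
  rw [coe_tauNew, ← hv, h.tau_xv]

theorem xv_inj (h : Hyp p l n T io Pi τ) (v : V) (hv : xv T io v = 0) : v = 0 := by
  have := h.inj' ![v, - T v, v] (by
    show io 0 v + io 1 (- T v) + io 2 v = 0
    rw [map_neg, ← sub_eq_add_neg]; exact hv) 0
  exact this

/-- for `w ∈ V[p]`, `x_w ∈ p^(n-1) C`. -/
theorem exists_mem_Cgrp (h : Hyp p l n T io Pi τ) (w : V) (hw : p • w = 0) :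
    ∃ c ∈ Cgrp T io Pi l, ((p ^ (n - 1) • c : Wnew Pi) : W) = xv T io w := by
  have hdiv : ∀ k : ℕ, ∃ v : V, p ^ k • v = w := by
    intro k
    induction k with
    | zero => exact ⟨w, by simp⟩
    | succ k ih =>
      obtain ⟨v, hv⟩ := ih
      obtain ⟨v', hv'⟩ := h.Vdiv v
      exact ⟨v', by rw [pow_succ, mul_smul, hv', hv]⟩
  obtain ⟨v, hv⟩ := hdiv (n - 1)
  have hpn : p ^ n • v = 0 := by
    have : n = (n - 1) + 1 := by have := h.hn; omega
    rw [this, pow_succ', mul_smul, hv, hw]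
  have hl : (l - 1) • v = 0 := by
    obtain ⟨c, hc⟩ := h.hdvd
    rw [hc, mul_comm, mul_smul, hpn, smul_zero]
  refine ⟨⟨xv T io v, h.xv_mem v hl⟩, mem_Cgrp.2 ⟨v, hl, rfl⟩, ?_⟩
  show p ^ (n - 1) • xv T io v = xv T io w
  rw [← map_nsmul, hv]

/-- **(GROW), abstract form**: `#V[p] ^ φ(p^n) ≤ #W[p]`. -/
theorem grow (h : Hyp p l n T io Pi τ) :
    {v : V | p • v = 0}.ncard ^ (p ^ (n - 1) * (p - 1)) ≤ {x : W | p • x = 0}.ncard := by
  have hn : n = (n - 1) + 1 := by have := h.hn; omega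
  set D : Set (Wnew Pi) := {x | ∃ w : V, p • w = 0 ∧ xv T io w = x} with hD
  have key := grow_abs (X := Wnew Pi) p (n - 1) h.hp h.Wnew_div h.Wnew_tors h.tauNew
    (fun x => by rw [← hn]; exact h.tauNew_ord x) h.finite_fix D (by
      rintro d ⟨w, hw, hd⟩
      obtain ⟨c, hc, hcw⟩ := h.exists_mem_Cgrp w hw
      exact ⟨c, h.Cgrp_fix c hc, Subtype.ext (by rw [hcw, hd])⟩)
  have h1 : D.ncard = {v : V | p • v = 0}.ncard := by
    rw [← Set.ncard_image_of_injective D Subtype.val_injective]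
    have : Subtype.val '' D = xv T io '' {v : V | p • v = 0} := by
      ext x
      constructor
      · rintro ⟨d, ⟨w, hw, hd⟩, rfl⟩
        exact ⟨w, hw, hd⟩
      · rintro ⟨w, hw, rfl⟩
        have hl : (l - 1) • w = 0 := by
          obtain ⟨c, hc⟩ := h.hdvd
          have hw' : p • w = 0 := hw
          have e : p ^ n * c = (p ^ (n - 1) * c) * p := by
            conv_lhs => rw [hn, pow_succ]
            ring
          rw [hc, e, mul_smul, hw', smul_zero]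
        exact ⟨⟨xv T io w, h.xv_mem w hl⟩, ⟨w, hw, rfl⟩, rfl⟩
    rw [this]
    refine Set.ncard_image_of_injective _ ?_
    exact (injective_iff_map_eq_zero _).2 h.xv_inj
  have h2 : {x : Wnew Pi | p • x = 0}.ncard ≤ {x : W | p • x = 0}.ncard := by
    rw [← Set.ncard_image_of_injective _ Subtype.val_injective]
    refine Set.ncard_le_ncard ?_ h.Wfin
    rintro _ ⟨x, hx, rfl⟩
    exact congrArg Subtype.val hx
  rw [← h1]
  exact key.2.trans h2

end Hyp

end Fermat.Agent.RIB.Grow
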