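import Fermat.Agent.RIB.Grow.Abs
import Fermat.Agent.RIB.Grow.Tau

/-!
# RIB / GROW : instantiation of the abstract assembly (`Grow/Abs.lean`) on the `θ`-parts

`V = thetaPart L p S θ`, `W = thetaPart (L*l*l) p S θ`.  Inputs (as hypotheses of `grow_of`):
* `Entries L l hl p`  : the nine identities `Π_i ι_j = A_ij(T_l)` on `p`-power torsion   [GROW-A],
* `hdivV`, `hdivW`    : the `θ`-parts are `p`-divisible                                   [ThetaDiv],
* `hweil`             : `Π` is onto on the `p`-torsion of the `θ`-parts                   [GROW-W],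
* `hsurj`, `hinj`     : (CTRL) for all `p^k`,
* `hrho`              : `τ^(p^n) = 1` on `W` for `τ` in the inertia group at `l`          [RHO],
* `hunit`             : `(l+1)² - T_l²` is injective on `V[p]`                            [UNIT].
-/

set_option autoImplicit false
set_option linter.unusedSectionVars false

noncomputable section

open AlgebraicCurve ModularCurve

namespace Fermat.Agent.RIB

open Fermat.Agent.GAL Fermat.Agent.GAL.PC

local notation "Qbar" => AlgebraicClosure ℚ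
local notation "GQ" => (AlgebraicClosure ℚ ≃ₐ[ℚ] AlgebraicClosure ℚ)

/-- **[GROW-A]** the nine identities `Π_i ∘ ι_j = A_ij(T_l)` on `p`-power torsion. -/
structure Entries (L l : ℕ) [NeZero L] [NeZero l] (hl : l.Prime) (p : ℕ) : Prop where
  diag : ∀ i, ∀ x ∈ ptors (JZero L) p, Pii L l i (iot L l i x) = (l * (l + 1)) • x
  adj01 : ∀ x ∈ ptors (JZero L) p, Pii L l 0 (iot L l 1 x) = l • heckeOperatorBar L ⟨l, hl⟩ x
  adj10 : ∀ x ∈ ptors (JZero L) p, Pii L l 1 (iot L l 0 x) = l • heckeOperatorBar L ⟨l, hl⟩ x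
  adj12 : ∀ x ∈ ptors (JZero L) p, Pii L l 1 (iot L l 2 x) = l • heckeOperatorBar L ⟨l, hl⟩ x
  adj21 : ∀ x ∈ ptors (JZero L) p, Pii L l 2 (iot L l 1 x) = l • heckeOperatorBar L ⟨l, hl⟩ x
  far02 : ∀ x ∈ ptors (JZero L) p, Pii L l 0 (iot L l 2 x) =
    heckeOperatorBar L ⟨l, hl⟩ (heckeOperatorBar L ⟨l, hl⟩ x) - (l + 1) • x
  far20 : ∀ x ∈ ptors (JZero L) p, Pii L l 2 (iot L l 0 x) =
    heckeOperatorBar L ⟨l, hl⟩ (heckeOperatorBar L ⟨l, hl⟩ x) - (l + 1) • x

section Abstract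

variable {V : Type*} [AddCommGroup V]

/-- elimination (copy of `Grow.Hyp.ker_A` with explicit hypotheses): `ker A` is killed by
`(l-1) l (l+1)`. -/
theorem ker_A_aux {l : ℕ} (hl : 1 < l) (T : V →+ V)
    (hunit : ∀ v : V, ((l + 1) ^ 2) • v - T (T v) = 0 → v = 0) (v : Fin 3 → V)
    (E0 : (l * (l + 1)) • v 0 + l • T (v 1) + (T (T (v 2)) - (l + 1) • v 2) = 0)
    (E1 : l • T (v 0) + (l * (l + 1)) • v 1 + l • T (v 2) = 0)
    (E2 : T (T (v 0)) - (l + 1) • v 0 + l • T (v 1) + (l * (l + 1)) • v 2 = 0) :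
    ∀ i, ((l - 1) * l * (l + 1)) • v i = 0 := by
  obtain ⟨m, rfl⟩ : ∃ m, l = m + 1 := ⟨l - 1, by omega⟩
  have h02 : v 0 - v 2 = 0 := by
    refine hunit _ ?_
    rw [map_sub, map_sub]
    have : ((m + 1 + 1) ^ 2) • (v 0 - v 2) - (T (T (v 0)) - T (T (v 2)))
        = (((m + 1) * (m + 1 + 1)) • v 0 + (m + 1) • T (v 1) + (T (T (v 2)) - (m + 1 + 1) • v 2))
          - (T (T (v 0)) - (m + 1 + 1) • v 0 + (m + 1) • T (v 1)
            + ((m + 1) * (m + 1 + 1)) • v 2) := by module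
    rw [this, E0, E2, sub_zero]
  have h2 : v 2 = v 0 := (sub_eq_zero.1 h02).symm
  rw [h2] at E0 E1
  have TE1 := congrArg T E1
  rw [map_add, map_add, map_nsmul, map_nsmul, map_zero] at TE1
  have h0 : m • v 0 = 0 := by
    refine hunit _ ?_
    rw [map_nsmul, map_nsmul]
    have : ((m + 1 + 1) ^ 2) • (m • v 0) - m • T (T (v 0))
        = (m + 2) • (((m + 1) * (m + 1 + 1)) • v 0 + (m + 1) • T (v 1)
            + (T (T (v 0)) - (m + 1 + 1) • v 0))
          - ((m + 1) • T (T (v 0)) + ((m + 1) * (m + 1 + 1)) • T (v 1)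
            + (m + 1) • T (T (v 0))) := by module
    rw [this, E0, TE1]; simp
  have hT0 : m • T (v 0) = 0 := by rw [← map_nsmul, h0, map_zero]
  have h1 : (m * (m + 1) * (m + 1 + 1)) • v 1 = 0 := by
    have : (m * (m + 1) * (m + 1 + 1)) • v 1
        = m • ((m + 1) • T (v 0) + ((m + 1) * (m + 1 + 1)) • v 1 + (m + 1) • T (v 0))
          - (2 * (m + 1)) • (m • T (v 0)) := by module
    rw [this, E1, hT0]; simp
  have h0' : (m * (m + 1) * (m + 1 + 1)) • v 0 = 0 := by
    rw [show m * (m + 1) * (m + 1 + 1) = ((m + 1) * (m + 1 + 1)) * m by ring, mul_smul, h0,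
      smul_zero]
  intro i
  simp only [Nat.add_sub_cancel]
  fin_cases i
  · exact h0'
  · exact h1
  · show (m * (m + 1) * (m + 1 + 1)) • v 2 = 0
    rw [h2]; exact h0'

theorem act_nsmul {G J : Type*} [Group G] [AddCommGroup J] [DistribMulAction G J] (σ : G) (c : ℕ)
    (x : J) : σ • (c • x) = c • (σ • x) := by
  induction c with
  | zero => rw [zero_smul, zero_smul, smul_zero]
  | succ c ih => rw [succ_nsmul, succ_nsmul, smul_add, ih]

theorem act_zero {G J : Type*} [Group G] [AddCommGroup J] [DistribMulAction G J] (σ : G) :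
    σ • (0 : J) = 0 := smul_zero σ

theorem inj_of_inj_on_tors {p : ℕ} (htors : ∀ v : V, ∃ k, p ^ k • v = 0) (T : V →+ V) (c : ℕ)
    (hf : ∀ v, p • v = 0 → c • v - T (T v) = 0 → v = 0) (v : V) (hv : c • v - T (T v) = 0) :
    v = 0 := by
  obtain ⟨k, hk⟩ := htors v
  induction k generalizing v with
  | zero => simpa using hk
  | succ k ih =>
    have h1 : p ^ k • v = 0 := by
      refine hf _ ?_ ?_
      · rw [← mul_smul, ← pow_succ']; exact hk
      · rw [map_nsmul, map_nsmul, smul_comm c, ← smul_sub, hv, smul_zero]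
    exact ih v hv h1

/-- a `p`-primary element killed by `c` with `p^(n+1) ∤ c` is killed by `p^n`. -/
theorem pow_smul_eq_zero_of_not_dvd {p : ℕ} (hp : p.Prime) {n c : ℕ} (hc : ¬ p ^ (n + 1) ∣ c)
    {v : V} (h1 : ∃ k, p ^ k • v = 0) (h2 : c • v = 0) : p ^ n • v = 0 := by
  obtain ⟨k, hk⟩ := h1
  obtain ⟨i, -, hi⟩ := (Nat.dvd_prime_pow hp).1 (addOrderOf_dvd_of_nsmul_eq_zero hk)
  have h3 : p ^ i ∣ c := hi ▸ addOrderOf_dvd_of_nsmul_eq_zero h2
  have h4 : i ≤ n := by
    by_contra hcon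
    exact hc ((pow_dvd_pow p (by omega)).trans h3)
  exact addOrderOf_dvd_iff_nsmul_eq_zero.1 (hi ▸ pow_dvd_pow p h4)

/-- **the `τ₀`-trick.**  `X` a `p`-primary group, `P` a subgroup-like predicate ("new and
`τ₀`-fixed") stable under multiples; if every `x` with `P x` and `p^(n+1) x = 0` is killed by `p^n`,
then every `x` with `P x` is killed by `p^n`. -/
theorem pow_smul_eq_zero_of_step {X : Type*} [AddCommGroup X] {p n : ℕ} (P : X → Prop)
    (hP : ∀ (c : ℕ) x, P x → P (c • x))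
    (hstep : ∀ x, P x → p ^ (n + 1) • x = 0 → p ^ n • x = 0)
    (x : X) (hx : P x) (ht : ∃ k, p ^ k • x = 0) : p ^ n • x = 0 := by
  obtain ⟨k, hk⟩ := ht
  induction k with
  | zero =>
    rw [pow_zero, one_smul] at hk
    rw [hk, smul_zero]
  | succ k ih =>
    by_cases hkn : k + 1 ≤ n
    · obtain ⟨d, rfl⟩ := Nat.exists_eq_add_of_le hkn
      rw [add_comm, pow_add, mul_smul, hk, smul_zero]
    · apply ih
      obtain ⟨d, hd⟩ := Nat.exists_eq_add_of_le (show n ≤ k by omega)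
      have h1 := hstep (p ^ d • x) (hP _ _ hx) (by
        rw [← mul_smul, ← pow_add, show n + 1 + d = k + 1 by omega]; exact hk)
      rw [← mul_smul, ← pow_add, ← hd] at h1
      exact h1

end Abstract

section Inst

variable {L l p : ℕ} [NeZero L] [NeZero l] {S : Set ℕ} {θ : ℕ → ℤ}

/-- `π_i^*` on the `θ`-parts -/
def ioV (hS : ∀ r : ℕ, r.Prime → r ∉ S → ¬ r ∣ L * l * l * p) (i : Fin 3) :
    thetaPart L p S θ →+ thetaPart (L * l * l) p S θ :=
  ((iot L l i).comp (thetaPart L p S θ).subtype).codRestrict _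
    (fun x => iot_mem_thetaPart hS i x.2)

/-- `π_{i *}` on the `θ`-parts -/
def PiW (hS : ∀ r : ℕ, r.Prime → r ∉ S → ¬ r ∣ L * l * l * p) (i : Fin 3) :
    thetaPart (L * l * l) p S θ →+ thetaPart L p S θ :=
  ((Pii L l i).comp (thetaPart (L * l * l) p S θ).subtype).codRestrict _
    (fun x => Pii_mem_thetaPart hS i x.2)

/-- `T_l` on the `θ`-part of level `L` -/
def TV (hl : l.Prime) : thetaPart L p S θ →+ thetaPart L p S θ :=
  ((heckeOperatorBar L ⟨l, hl⟩).toAddMonoidHom.comp (thetaPart L p S θ).subtype).codRestrict _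
    (fun x => hecke_mem_thetaPart _ x.2)

/-- the action of `τ` on the `θ`-part of level `L l l` -/
def tauW (τ : GQ) : thetaPart (L * l * l) p S θ →+ thetaPart (L * l * l) p S θ :=
  DistribSMul.toAddMonoidHom _ τ

@[simp] theorem coe_ioV (hS : ∀ r : ℕ, r.Prime → r ∉ S → ¬ r ∣ L * l * l * p) (i : Fin 3)
    (v : thetaPart L p S θ) : ((ioV hS i v : thetaPart (L * l * l) p S θ) : JZero (L * l * l)) =
      iot L l i v := rfl

@[simp] theorem coe_PiW (hS : ∀ r : ℕ, r.Prime → r ∉ S → ¬ r ∣ L * l * l * p) (i : Fin 3)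
    (x : thetaPart (L * l * l) p S θ) : ((PiW hS i x : thetaPart L p S θ) : JZero L) =
      Pii L l i x := rfl

@[simp] theorem coe_TV (hl : l.Prime) (v : thetaPart L p S θ) :
    ((TV hl v : thetaPart L p S θ) : JZero L) = heckeOperatorBar L ⟨l, hl⟩ v := rfl

@[simp] theorem coe_tauW (τ : GQ) (x : thetaPart (L * l * l) p S θ) :
    ((tauW τ x : thetaPart (L * l * l) p S θ) : JZero (L * l * l)) =
      τ • (x : JZero (L * l * l)) := rfl

theorem tauW_iterate (τ : GQ) (k : ℕ) (x : thetaPart (L * l * l) p S θ) :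
    (((tauW τ)^[k] x : thetaPart (L * l * l) p S θ) : JZero (L * l * l)) =
      τ ^ k • (x : JZero (L * l * l)) := by
  induction k generalizing x with
  | zero => rw [pow_zero, one_smul]; rfl
  | succ k ih => rw [Function.iterate_succ_apply, ih, coe_tauW, pow_succ, mul_smul]

theorem finite_thetaPart_tors (N : ℕ) [NeZero N] {p : ℕ} (hp : p ≠ 0) (S : Set ℕ) (θ : ℕ → ℤ) :
    {v : thetaPart N p S θ | p • v = 0}.Finite := by
  refine Set.Finite.of_finite_image (f := fun v : thetaPart N p S θ => (v : JZero N))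
    ((finite_torsion_JZero N p hp).subset ?_) Subtype.val_injective.injOn
  rintro _ ⟨v, hv, rfl⟩
  exact congrArg Subtype.val hv

theorem not_dvd_aux {p l n : ℕ} (hp : p.Prime) (hp2 : p ≠ 2) (hl1 : 1 < l) (hn : 1 ≤ n)
    (hdvd : p ^ n ∣ l - 1) (hex : ¬ p ^ (n + 1) ∣ l - 1) : ¬ p ^ (n + 1) ∣ (l - 1) * l * (l + 1) := by
  have hpl : p ∣ l - 1 := (dvd_pow_self p (by omega)).trans hdvd
  have h1 : ¬ p ∣ l := by
    intro h
    have : p ∣ l - (l - 1) := Nat.dvd_sub h hpl
    rw [show l - (l - 1) = 1 by omega] at this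
    exact hp.one_lt.ne' (Nat.dvd_one.1 this)
  have h2 : ¬ p ∣ l + 1 := by
    intro h
    have : p ∣ l + 1 - (l - 1) := Nat.dvd_sub h hpl
    rw [show l + 1 - (l - 1) = 2 by omega] at this
    exact hp2 ((Nat.prime_dvd_prime_iff_eq hp Nat.prime_two).1 this)
  intro h
  have hc : Nat.Coprime (p ^ (n + 1)) (l * (l + 1)) :=
    Nat.Coprime.pow_left _ ((Nat.Prime.coprime_iff_not_dvd hp).2 fun h' =>
      (hp.dvd_mul.1 h').elim h1 h2)
  rw [mul_assoc] at h
  exact hex (hc.dvd_of_dvd_mul_right h)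

set_option maxHeartbeats 1000000 in
/-- **(GROW)** from its inputs. -/
theorem grow_of {n : ℕ} (hp : p.Prime) (hp2 : p ≠ 2) (hl : l.Prime) (hlL : ¬ l ∣ L) (hn : 1 ≤ n)
    (hdvd : p ^ n ∣ l - 1) (hex : ¬ p ^ (n + 1) ∣ l - 1)
    (hS : ∀ r : ℕ, r.Prime → r ∉ S → ¬ r ∣ L * l * l * p)
    {A : ValuationSubring Qbar} (hA : A.LiesOverPrime l)
    (hE : Entries L l hl p)
    (hdivV : ∀ x ∈ thetaPart L p S θ, ∃ y ∈ thetaPart L p S θ, p • y = x)
    (hdivW : ∀ x ∈ thetaPart (L * l * l) p S θ, ∃ y ∈ thetaPart (L * l * l) p S θ, p • y = x)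
    (hweil : ∀ v : Fin 3 → JZero L, (∀ i, v i ∈ thetaPart L p S θ ∧ p • v i = 0) →
      ∃ x ∈ thetaPart (L * l * l) p S θ, p • x = 0 ∧ ∀ i, Pii L l i x = v i)
    (hsurj : ∀ x ∈ thetaPart (L * l * l) p S θ, (∀ τ ∈ A.inertiaSubgroupIn ℚ, τ • x = x) →
      ∃ v : Fin 3 → JZero L, (∀ i, v i ∈ thetaPart L p S θ) ∧ iota L l v = x)
    (hinj : ∀ v : Fin 3 → JZero L, (∀ i, v i ∈ thetaPart L p S θ ∧ p • v i = 0) →
      iota L l v = 0 → ∀ i, v i = 0)
    (hrho : ∀ τ ∈ A.inertiaSubgroupIn ℚ, ∀ x ∈ thetaPart (L * l * l) p S θ, τ ^ (p ^ n) • x = x)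
    (hunit : ∀ v ∈ thetaPart L p S θ, p • v = 0 →
      ((l + 1) ^ 2) • v - heckeOperatorBar L ⟨l, hl⟩ (heckeOperatorBar L ⟨l, hl⟩ v) = 0 → v = 0) :
    {v : thetaPart L p S θ | p • v = 0}.ncard ^ (p ^ (n - 1) * (p - 1)) ≤
      {x : thetaPart (L * l * l) p S θ | p • x = 0}.ncard := by
  have hpl : p ≠ l := by
    rintro rfl
    have h1 : p ∣ p - 1 := (dvd_pow_self p (by omega)).trans hdvd
    have := Nat.le_of_dvd (by have := hp.two_le; omega) h1
    have := hp.two_le
    omega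
  have hlLp : ¬ l ∣ L * p := fun h => (hl.dvd_mul.1 h).elim hlL fun h' =>
    hpl ((Nat.prime_dvd_prime_iff_eq hl hp).1 h').symm
  have hVt : ∀ v : thetaPart L p S θ, ∃ k, p ^ k • v = 0 := fun v => by
    obtain ⟨k, hk⟩ := v.2.1
    exact ⟨k, Subtype.ext hk⟩
  have hWt : ∀ x : thetaPart (L * l * l) p S θ, ∃ k, p ^ k • x = 0 := fun x => by
    obtain ⟨k, hk⟩ := x.2.1
    exact ⟨k, Subtype.ext hk⟩
  -- inertia acts trivially at level `L`
  have hunr : ∀ τ ∈ A.inertiaSubgroupIn ℚ, ∀ v ∈ ptors (JZero L) p, τ • v = v := fun τ hτ v hv =>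
    (SS.es_all L p).1 l hl hlLp A hA τ hτ v hv
  -- `(l+1)² - T²` is injective on `V`
  have hunit' : ∀ v : thetaPart L p S θ,
      ((l + 1) ^ 2) • v - TV hl (TV hl v) = 0 → v = 0 := by
    intro v hv
    refine inj_of_inj_on_tors (p := p) hVt (TV hl) ((l + 1) ^ 2) ?_ v hv
    intro v h1 h2
    exact Subtype.ext (hunit v v.2 (congrArg Subtype.val h1) (congrArg Subtype.val h2))
  -- the generator `τ₀`
  obtain ⟨τ₀, hτ₀, hgen⟩ := exists_tau0 hl hA
    (thetaPart (L * l * l) p S θ ⊓ (nsmulAddMonoidHom (p ^ (n + 1))).ker)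
    (fun τ _ x hx => ⟨smul_mem_thetaPart τ hx.1, by
      have h2 : p ^ (n + 1) • x = 0 := hx.2
      show p ^ (n + 1) • (τ • x) = 0
      exact (act_nsmul τ _ x).symm.trans ((congrArg (τ • ·) h2).trans (act_zero τ))⟩)
    (p ^ (n + 1)) (pow_ne_zero _ hp.ne_zero) (fun x hx => hx.2) (p ^ n)
    (Nat.Coprime.pow_left _ ((Nat.coprime_primes hp hl).2 hpl))
    (fun τ hτ x hx => hrho τ hτ x hx.1)
  -- inertia fixed and new implies killed by `p ^ n`
  have hkill : ∀ x ∈ thetaPart (L * l * l) p S θ, (∀ τ ∈ A.inertiaSubgroupIn ℚ, τ • x = x) →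
      (∀ i, Pii L l i x = 0) → p ^ n • x = 0 := by
    intro x hx hfix hnew
    obtain ⟨v, hv, rfl⟩ := hsurj x hx hfix
    let v' : Fin 3 → thetaPart L p S θ := fun i => ⟨v i, hv i⟩
    have hpt : ∀ i, v i ∈ ptors (JZero L) p := fun i => (hv i).1
    have E0 := hnew 0
    have E1 := hnew 1
    have E2 := hnew 2
    rw [iota_apply', map_add, map_add, hE.diag 0 _ (hpt 0), hE.adj01 _ (hpt 1),
      hE.far02 _ (hpt 2)] at E0
    rw [iota_apply', map_add, map_add, hE.diag 1 _ (hpt 1), hE.adj10 _ (hpt 0),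
      hE.adj12 _ (hpt 2)] at E1
    rw [iota_apply', map_add, map_add, hE.diag 2 _ (hpt 2), hE.adj21 _ (hpt 1),
      hE.far20 _ (hpt 0)] at E2
    have hk := ker_A_aux hl.one_lt (TV hl) hunit' v' (Subtype.ext E0) (Subtype.ext E1)
      (Subtype.ext E2)
    have hk' : ∀ i, p ^ n • v i = 0 := fun i =>
      congrArg Subtype.val (pow_smul_eq_zero_of_not_dvd hp
        (not_dvd_aux hp hp2 hl.one_lt hn hdvd hex) (hVt (v' i)) (hk i))
    rw [← map_nsmul]
    have : p ^ n • v = 0 := funext hk'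
    rw [this, map_zero]
  -- the `τ₀`-trick
  have htrick : ∀ x : thetaPart (L * l * l) p S θ, τ₀ • (x : JZero (L * l * l)) = x →
      (∀ i, Pii L l i x = 0) → p ^ n • (x : JZero (L * l * l)) = 0 := by
    intro x h1 h2
    have := pow_smul_eq_zero_of_step (p := p) (n := n)
      (fun y : thetaPart (L * l * l) p S θ => τ₀ • (y : JZero (L * l * l)) = y ∧
        ∀ i, Pii L l i y = 0)
      (fun c y hy => ⟨by
          show τ₀ • (c • (y : JZero (L * l * l))) = c • (y : JZero (L * l * l))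
          exact (act_nsmul τ₀ c _).trans (congrArg (c • ·) hy.1), fun i => by
          show Pii L l i (c • (y : JZero (L * l * l))) = 0
          rw [map_nsmul, hy.2 i, smul_zero]⟩)
      (fun y hy hyt => Subtype.ext (hkill y y.2
        (hgen y ⟨y.2, congrArg Subtype.val hyt⟩ hy.1) hy.2))
      x ⟨h1, h2⟩ (hWt x)
    exact congrArg Subtype.val this
  have H : Grow.Hyp p l n (TV hl) (ioV (θ := θ) hS) (PiW hS) (tauW τ₀) :=
    { hp := hp
      hl := hl.one_lt
      hn := hn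
      hdvd := hdvd
      Vdiv := fun v => by
        obtain ⟨y, hy, hyv⟩ := hdivV v v.2
        exact ⟨⟨y, hy⟩, Subtype.ext hyv⟩
      Vtors := hVt
      Vfin := finite_thetaPart_tors L hp.ne_zero S θ
      Wdiv := fun x => by
        obtain ⟨y, hy, hyx⟩ := hdivW x x.2
        exact ⟨⟨y, hy⟩, Subtype.ext hyx⟩
      Wtors := hWt
      Wfin := finite_thetaPart_tors (L * l * l) hp.ne_zero S θ
      diag := fun i v => Subtype.ext (hE.diag i v v.2.1)
      adj01 := fun v => Subtype.ext (hE.adj01 v v.2.1)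
      adj10 := fun v => Subtype.ext (hE.adj10 v v.2.1)
      adj12 := fun v => Subtype.ext (hE.adj12 v v.2.1)
      adj21 := fun v => Subtype.ext (hE.adj21 v v.2.1)
      far02 := fun v => Subtype.ext (hE.far02 v v.2.1)
      far20 := fun v => Subtype.ext (hE.far20 v v.2.1)
      inj := fun v hv h0 i => Subtype.ext (hinj (fun i => (v i : JZero L))
        (fun i => ⟨(v i).2, congrArg Subtype.val (hv i)⟩)
        (by rw [iota_apply']; exact congrArg Subtype.val h0) i)
      fix := fun x hx hnew => by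
        have h1 : τ₀ • (x : JZero (L * l * l)) = x := congrArg Subtype.val hx
        have h2 : ∀ i, Pii L l i x = 0 := fun i => congrArg Subtype.val (hnew i)
        have h3 := htrick x h1 h2
        obtain ⟨v, hv, hvx⟩ := hsurj x x.2 (hgen x ⟨x.2, by
          show p ^ (n + 1) • (x : JZero (L * l * l)) = 0
          rw [pow_succ', mul_smul, h3, smul_zero]⟩ h1)
        refine ⟨fun i => ⟨v i, hv i⟩, Subtype.ext ?_⟩
        rw [← hvx, iota_apply']
        rfl
      fix_io := fun i v => Subtype.ext (by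
        rw [coe_tauW, coe_ioV, ← iot_smul, hunr τ₀ hτ₀ v v.2.1])
      Pi_tau := fun i x => Subtype.ext (by
        rw [coe_PiW, coe_tauW, Pii_smul, coe_PiW]
        exact hunr τ₀ hτ₀ _ (SS.map_mem_ptors' _ x.2.1))
      weil := fun v hv => by
        obtain ⟨x, hx, hpx, hxv⟩ := hweil (fun i => (v i : JZero L))
          (fun i => ⟨(v i).2, congrArg Subtype.val (hv i)⟩)
        exact ⟨⟨x, hx⟩, Subtype.ext hpx, fun i => Subtype.ext (hxv i)⟩
      ord := fun x => Subtype.ext (by rw [tauW_iterate]; exact hrho τ₀ hτ₀ x x.2)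
      unit := fun v h1 h2 => hunit' v h2 }
  exact H.grow

end Inst

end Fermat.Agent.RIB
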