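import Fermat.Agent.RIB.Deg.Entries
import Fermat.Agent.RIB.Deg.UWAbs
import Fermat.Agent.RIB.Grow.Inst
import Fermat.Agent.SS.Z1.Transport
import Fermat.Agent.S36.Kum.Level

/-!
# RIB / GROW-A : the modular instance of `Tower` and the nine entries `Π_i ι_j = A_ij (T_l)`
-/

set_option autoImplicit false
set_option linter.unusedSectionVars false
set_option linter.style.haveILetI false

noncomputable section

open AlgebraicCurve ModularCurve

namespace Fermat.Agent.RIB

open Fermat.Agent.GAL Fermat.Agent.GAL.PC Fermat.Agent.GAL.HeckeInputs Fermat.Agent.GAL.HeckeComm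
  Fermat.Agent.S24

/-- `α` at level `(M, q)` -/
def covA (M q : ℕ) [NeZero M] [NeZero q] : Cov Kb (FN M) (FN (M * q)) :=
  ⟨heckeAlphaBar Kb M q, heckeAlphaBarIntegral M q, fundamentalIdentityAlong_alpha M q,
    finiteAlong_alpha M q, normFormulaAlong_alpha M q⟩

/-- `β` at level `(M, q)` -/
def covB (M q : ℕ) [NeZero M] [NeZero q] : Cov Kb (FN M) (FN (M * q)) :=
  ⟨heckeBetaBar Kb M q, heckeBetaBarIntegral M q, fundamentalIdentityAlong_beta M q,
    finiteAlong_beta M q, normFormulaAlong_beta M q⟩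

variable (L l : ℕ) [NeZero L] [hl : Fact l.Prime]

instance : NeZero l := ⟨hl.out.ne_zero⟩

theorem deg_comm :
    (heckeAlphaBar Kb (L * l) l).comp (heckeBetaBar Kb L l) =
      (heckeBetaBar Kb (L * l) l).comp (heckeAlphaBar Kb L l) := by
  refine AlgHom.ext fun x => Subtype.ext ?_
  rw [AlgHom.comp_apply, AlgHom.comp_apply, coe_heckeAlphaBar, coe_heckeBetaBar, coe_heckeBetaBar,
    coe_heckeAlphaBar]

theorem deg_gen :
    Subfield.closure (Set.range (heckeAlphaBar Kb (L * l) l).toRingHom ∪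
      Set.range (heckeBetaBar Kb (L * l) l).toRingHom) = ⊤ := by
  apply subfield_eq_top
  · intro a
    rw [← (heckeAlphaBar Kb (L * l) l).commutes a]
    exact Subfield.subset_closure (Or.inl ⟨_, rfl⟩)
  · have : jF (L * l * l) = heckeAlphaBar Kb (L * l) l (jF (L * l)) := by
      apply Subtype.ext
      rw [coe_heckeAlphaBar]
      rfl
    rw [this]
    exact Subfield.subset_closure (Or.inl ⟨_, rfl⟩)
  · have : jBar (L * l * l) (L * l * l) dvd_rfl =
        heckeBetaBar Kb (L * l) l (jBar (L * l) (L * l) dvd_rfl) := by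
      apply Subtype.ext
      rw [coe_heckeBetaBar, coe_jBar, coe_jBar, jqNModC, jqNModC, qExpand_qExpand]
      exact HeckeComm.qExpand_congr (by ring) _
    rw [this]
    exact Subfield.subset_closure (Or.inr ⟨_, rfl⟩)

variable {L l}

/-- the modular instance of `DegData` -/
def degData (hlL : ¬ l ∣ L) : DegData (FN L) (FN (L * l)) (FN (L * l * l)) l where
  α := (heckeAlphaBar Kb L l).toRingHom
  β := (heckeBetaBar Kb L l).toRingHom
  α' := (heckeAlphaBar Kb (L * l) l).toRingHom
  β' := (heckeBetaBar Kb (L * l) l).toRingHom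
  w := (SS.swAlg L l hlL).toRingHom
  comm := congrArg AlgHom.toRingHom (deg_comm L l)
  ww := RingHom.ext fun y => SS.swAlg_swAlg hlL y
  wα := RingHom.ext fun f => SS.swAlg_alpha L l hlL f
  degα := finrankAlong_alpha_of_not_dvd L l hl.out hlL
  degα' := finrankAlong_alpha_of_dvd (L * l) l hl.out (dvd_mul_left l L)
  degβ' := (S36.Kum.finrankAlong_beta_eq_alpha' (L * l) l hl.out).trans
    (finrankAlong_alpha_of_dvd (L * l) l hl.out (dvd_mul_left l L))
  two_le := hl.out.two_le
  gen := deg_gen L l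

/-- the modular instance of `Tower` -/
theorem tower (hlL : ¬ l ∣ L) :
    Tower l (covA L l) (covB L l) (covA (L * l) l) (covB (L * l) l) (SS.swAlg L l hlL) where
  comm := deg_comm L l
  wa := SS.swAlg_alpha L l hlL
  wb := SS.swAlg_beta L l hlL
  dega := finrankAlong_alpha_of_not_dvd L l hl.out hlL
  degb := (degData hlL).degβ
  dega' := finrankAlong_alpha_of_dvd (L * l) l hl.out (dvd_mul_left l L)
  degb' := (degData hlL).degβ'
  uw1 := (degData hlL).uw
  uw2 := (degData hlL).uw'
  sw := (degData hlL).T_eq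

theorem hecke_eq_push_pull (x : JZero L) :
    heckeOperatorBar L ⟨l, hl.out⟩ x = (covA L l).push ((covB L l).pull x) := by
  show heckeOperatorAlong (AlgebraicClosure ℚ) L l x = _
  rw [heckeOperatorAlong_eq' L l, heckePic0Bar]
  exact correspondence_eq_push_pull _ _ _ _ _ _ _ x

theorem Pii_zero' (y : JZero (L * l * l)) :
    Pii L l 0 y = (covA L l).push ((covA (L * l) l).push y) := rfl
theorem Pii_one' (y : JZero (L * l * l)) :
    Pii L l 1 y = (covB L l).push ((covA (L * l) l).push y) := rfl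
theorem Pii_two' (y : JZero (L * l * l)) :
    Pii L l 2 y = (covB L l).push ((covB (L * l) l).push y) := rfl
theorem iot_zero' (x : JZero L) :
    iot L l 0 x = (covA (L * l) l).pull ((covA L l).pull x) := rfl
theorem iot_one' (x : JZero L) :
    iot L l 1 x = (covA (L * l) l).pull ((covB L l).pull x) := rfl
theorem iot_two' (x : JZero L) :
    iot L l 2 x = (covB (L * l) l).pull ((covB L l).pull x) := rfl

/-- **[GROW-A]** -/
theorem entries (hlL : ¬ l ∣ L) {p : ℕ} (hp : p ≠ 0) : Entries L l hl.out p := by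
  have H := tower hlL
  have key : ∀ x ∈ ptors (JZero L) p, ∃ m : ℕ, m ≠ 0 ∧ m • x = 0 := fun x ⟨k, hk⟩ =>
    ⟨p ^ k, pow_ne_zero _ hp, hk⟩
  have d0 : ∀ x ∈ ptors (JZero L) p, Pii L l 0 (iot L l 0 x) = (l * (l + 1)) • x := by
    intro x hx
    obtain ⟨m, hm, hmx⟩ := key x hx
    rw [Pii_zero', iot_zero']
    exact H.e00 hm hmx
  have d1 : ∀ x ∈ ptors (JZero L) p, Pii L l 1 (iot L l 1 x) = (l * (l + 1)) • x := by
    intro x hx
    obtain ⟨m, hm, hmx⟩ := key x hx
    rw [Pii_one', iot_one']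
    exact H.e11 hm hmx
  have d2 : ∀ x ∈ ptors (JZero L) p, Pii L l 2 (iot L l 2 x) = (l * (l + 1)) • x := by
    intro x hx
    obtain ⟨m, hm, hmx⟩ := key x hx
    rw [Pii_two', iot_two']
    exact H.e22 hm hmx
  refine ⟨fun i => ?_, fun x hx => ?_, fun x hx => ?_, fun x hx => ?_, fun x hx => ?_,
    fun x hx => ?_, fun x hx => ?_⟩
  · match i with
    | 0 => exact d0
    | 1 => exact d1
    | 2 => exact d2
  · obtain ⟨m, hm, hmx⟩ := key x hx
    rw [Pii_zero', iot_one', hecke_eq_push_pull]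
    exact H.e01 hm hmx
  · obtain ⟨m, hm, hmx⟩ := key x hx
    rw [Pii_one', iot_zero', hecke_eq_push_pull]
    exact H.e10 hm hmx
  · obtain ⟨m, hm, hmx⟩ := key x hx
    rw [Pii_one', iot_two', hecke_eq_push_pull]
    exact H.e12 hm hmx
  · obtain ⟨m, hm, hmx⟩ := key x hx
    rw [Pii_two', iot_one', hecke_eq_push_pull]
    exact H.e21 hm hmx
  · obtain ⟨m, hm, hmx⟩ := key x hx
    rw [Pii_zero', iot_two', hecke_eq_push_pull, hecke_eq_push_pull]
    exact eq_sub_of_add_eq (H.e02 hm hmx)
  · obtain ⟨m, hm, hmx⟩ := key x hx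
    rw [Pii_two', iot_zero', hecke_eq_push_pull, hecke_eq_push_pull]
    exact eq_sub_of_add_eq (H.e20 hm hmx)

end Fermat.Agent.RIB
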