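import Fermat.Agent.RIB.Main.Defs

/-!
# RIB / GROW : from cardinalities to dimensions, iteration along the tower of levels  (block B6)

* `ncard_thetaPart_tors` : `#(thetaPart L)[p] = p ^ dim W(L)`;
* `finrank_WS_step` : `#V[p] ^ (p^(n-1) (p-1)) ≤ #W[p]`  ⟹  `dim W(L) * ((p-1) p^(n-1)) ≤ dim W(L l l)`;
* `finrank_WS_iter`, `finrank_WS_iter_fin` : the iteration along `lvl`, in the shape of the hypothesis `grow` of `end_false`.
-/

set_option autoImplicit false
set_option linter.unusedSectionVars false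

noncomputable section

open AlgebraicCurve ModularCurve Module

namespace Fermat.Agent.RIB

variable {p : ℕ} [Fact p.Prime] {S : Set ℕ} {θ : ℕ → ℤ}

/-- `W(L)` has `p ^ dim` elements. -/
theorem natCard_WS (L : ℕ) [NeZero L] :
    Nat.card ↥(WS L p S θ) = p ^ finrank (ZMod p) ↥(WS L p S θ) := by
  have h := Module.natCard_eq_pow_finrank (K := ZMod p) (V := ↥(WS L p S θ))
  rwa [Nat.card_zmod] at h

/-- the `p`-torsion of the `θ`-part, as a set of the subtype, has the cardinality of `W(L)`. -/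
theorem ncard_thetaPart_tors (L : ℕ) [NeZero L] :
    {v : thetaPart L p S θ | p • v = 0}.ncard = p ^ finrank (ZMod p) ↥(WS L p S θ) := by
  rw [← natCard_WS, ← Nat.card_coe_set_eq]
  refine Nat.card_congr
    { toFun := fun v => ⟨v.1.1, v.1.2, congrArg Subtype.val v.2⟩
      invFun := fun w => ⟨⟨w.1, w.2.1⟩, Subtype.ext w.2.2⟩
      left_inv := fun _ => rfl
      right_inv := fun _ => rfl }

/-- one step of (GROW), in terms of dimensions. -/
theorem finrank_WS_step {L L' : ℕ} [NeZero L] [NeZero L'] {n : ℕ}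
    (h : {v : thetaPart L p S θ | p • v = 0}.ncard ^ (p ^ (n - 1) * (p - 1)) ≤
      {x : thetaPart L' p S θ | p • x = 0}.ncard) :
    finrank (ZMod p) ↥(WS L p S θ) * ((p - 1) * p ^ (n - 1)) ≤ finrank (ZMod p) ↥(WS L' p S θ) := by
  rw [ncard_thetaPart_tors, ncard_thetaPart_tors, ← pow_mul] at h
  have := (Nat.pow_le_pow_iff_right (Fact.out : p.Prime).one_lt).1 h
  rwa [mul_comm (p ^ (n - 1))] at this

/-- the iteration along the tower `lvl`. -/
theorem finrank_WS_iter (L₀ : ℕ) (l : ℕ → ℕ) [NeZero L₀] [∀ i, NeZero (l i)] (ν : ℕ → ℕ) (r : ℕ)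
    (step : ∀ i < r, finrank (ZMod p) ↥(WS (lvl L₀ l i) p S θ) * ((p - 1) * p ^ (ν i - 1)) ≤
      finrank (ZMod p) ↥(WS (lvl L₀ l (i + 1)) p S θ)) :
    finrank (ZMod p) ↥(WS L₀ p S θ) * ∏ i ∈ Finset.range r, ((p - 1) * p ^ (ν i - 1)) ≤
      finrank (ZMod p) ↥(WS (lvl L₀ l r) p S θ) := by
  induction r with
  | zero =>
    rw [Finset.prod_range_zero, mul_one]
    exact le_rfl
  | succ r ih =>
    rw [Finset.prod_range_succ, ← mul_assoc]
    exact (Nat.mul_le_mul_right _ (ih fun i hi => step i (by omega))).trans (step r (by omega))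

/-- the same with a product over `Fin r` (the shape of `grow` in `end_false`). -/
theorem finrank_WS_iter_fin (L₀ : ℕ) (l : ℕ → ℕ) [NeZero L₀] [∀ i, NeZero (l i)] (ν : ℕ → ℕ)
    (r : ℕ)
    (step : ∀ i < r, finrank (ZMod p) ↥(WS (lvl L₀ l i) p S θ) * ((p - 1) * p ^ (ν i - 1)) ≤
      finrank (ZMod p) ↥(WS (lvl L₀ l (i + 1)) p S θ)) :
    finrank (ZMod p) ↥(WS L₀ p S θ) * ∏ i : Fin r, ((p - 1) * p ^ (ν (i : ℕ) - 1)) ≤
      finrank (ZMod p) ↥(WS (lvl L₀ l r) p S θ) := by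
  rw [Fin.prod_univ_eq_prod_range (fun i => (p - 1) * p ^ (ν i - 1)) r]
  exact finrank_WS_iter L₀ l ν r step

end Fermat.Agent.RIB
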