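import Fermat.Agent.RIB.Grow.Inst
import Fermat.Agent.RIB.Grow.Div
import Fermat.Agent.RIB.Grow.Ent
import Fermat.Agent.RIB.WeilJ

/-!
# RIB / (GROW) : `# W(L)[p] ^ φ(p^n) ≤ # W(L l²)[p]`,  `p^n ∥ l - 1`

`V = thetaPart L p S θ`, `W = thetaPart (L*l*l) p S θ`.  The only remaining inputs are
(CTRL) (`hsurj`, `hinj`), (RHO) (`hrho`) and (UNIT) (`hunit`).
-/

set_option autoImplicit false
set_option linter.unusedSectionVars false

noncomputable section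

open AlgebraicCurve ModularCurve

namespace Fermat.Agent.RIB

open Fermat.Agent.GAL Fermat.Agent.GAL.PC

local notation "Qbar" => AlgebraicClosure ℚ
local notation "GQ" => (AlgebraicClosure ℚ ≃ₐ[ℚ] AlgebraicClosure ℚ)

variable {L l p : ℕ} [NeZero L] [NeZero l] {S : Set ℕ} {θ : ℕ → ℤ}

/-- **(GROW)** -/
theorem grow {n : ℕ} (hp : p.Prime) (hp2 : p ≠ 2) (hl : l.Prime) (hlL : ¬ l ∣ L) (hn : 1 ≤ n)
    (hdvd : p ^ n ∣ l - 1) (hex : ¬ p ^ (n + 1) ∣ l - 1)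
    (hS : ∀ r : ℕ, r.Prime → r ∉ S → ¬ r ∣ L * l * l * p)
    {A : ValuationSubring Qbar} (hA : A.LiesOverPrime l)
    (hsurj : ∀ x ∈ thetaPart (L * l * l) p S θ, (∀ τ ∈ A.inertiaSubgroupIn ℚ, τ • x = x) →
      ∃ v : Fin 3 → JZero L, (∀ i, v i ∈ thetaPart L p S θ) ∧ iota L l v = x)
    (hinj : ∀ v : Fin 3 → JZero L, (∀ i, v i ∈ thetaPart L p S θ ∧ p • v i = 0) →
      iota L l v = 0 → ∀ i, v i = 0)
    (hrho : ∀ τ ∈ A.inertiaSubgroupIn ℚ, ∀ x ∈ thetaPart (L * l * l) p S θ, τ ^ (p ^ n) • x = x)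
    (hunit : ∀ v ∈ thetaPart L p S θ, p • v = 0 →
      ((l + 1) ^ 2) • v - heckeOperatorBar L ⟨l, hl⟩ (heckeOperatorBar L ⟨l, hl⟩ v) = 0 → v = 0) :
    {v : thetaPart L p S θ | p • v = 0}.ncard ^ (p ^ (n - 1) * (p - 1)) ≤
      {x : thetaPart (L * l * l) p S θ | p • x = 0}.ncard :=
  haveI : Fact l.Prime := ⟨hl⟩
  grow_of hp hp2 hl hlL hn hdvd hex hS hA (entries hlL hp.ne_zero)
    (thetaPart_divisible L hp.pos S θ) (thetaPart_divisible (L * l * l) hp.pos S θ)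
    (fun v hv => WA.exists_Pii_eq_one hp hS
      (fun w hw hpw => hinj w fun i => ⟨hw i, hpw i⟩) v (fun i => (hv i).1) fun i => (hv i).2)
    hsurj hinj hrho hunit

end Fermat.Agent.RIB
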