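import Fermat.Agent.RIB.Grow.Iter
import Fermat.Agent.RIB.Grow.Ent
import Fermat.Agent.RIB.Grow.Div
import Fermat.Agent.RIB.WeilJ
import Fermat.Agent.RIB.Main.Spec

/-!
# RIB / GROW : the output `GrowOut` of block B6

`GrowIn L l p n S θ` : what (GROW) at the step `L → L l l` still needs from the other streams:
* (CTRL)  `surj`, `inj`   (`ctrl_theta`, `RIB/Ctrl/Theta.lean`),
* (RHO)   `rho`  : `τ ^ (p ^ n) = 1` on `thetaPart (L l l)` for `τ` in the inertia group at `l`,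
* (UNIT)  `unit` : `(l+1)² - T_l²` is injective on `W(L)`.

Everything else (the nine entries, divisibility of the `θ`-parts, Weil duality, the generator of tame inertia) is proved.

* `grow_step` : `GrowIn L l p n S θ`  ⟹  `dim W(L) * ((p-1) p^(n-1)) ≤ dim W(L l l)`;
* `growOut_of_growIn` : `GrowIn` at all the steps of the tower `lvl L₀ l`  ⟹  `GrowOut (lvl L₀ l r) p S θ r ν (dim W(L₀))`.
-/

set_option autoImplicit false
set_option linter.unusedSectionVars false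

noncomputable section

open AlgebraicCurve ModularCurve Module

namespace Fermat.Agent.RIB

local notation "Qbar" => AlgebraicClosure ℚ
local notation "GQ" => (AlgebraicClosure ℚ ≃ₐ[ℚ] AlgebraicClosure ℚ)

/-- the inputs of (GROW) at the step `L → L l l`. -/
structure GrowIn (L l p n : ℕ) [NeZero L] [NeZero l] (S : Set ℕ) (θ : ℕ → ℤ) : Prop where
  hl : l.Prime
  hlL : ¬ l ∣ L
  hn : 1 ≤ n
  hdvd : p ^ n ∣ l - 1
  hex : ¬ p ^ (n + 1) ∣ l - 1
  /-- (CTRL-surj) + (RHO), for one place `A` over `l` -/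
  loc : ∃ A : ValuationSubring Qbar, A.LiesOverPrime l ∧
    (∀ x ∈ thetaPart (L * l * l) p S θ, (∀ τ ∈ A.inertiaSubgroupIn ℚ, τ • x = x) →
      ∃ v : Fin 3 → JZero L, (∀ i, v i ∈ thetaPart L p S θ) ∧ iota L l v = x) ∧
    (∀ τ ∈ A.inertiaSubgroupIn ℚ, ∀ x ∈ thetaPart (L * l * l) p S θ, τ ^ (p ^ n) • x = x)
  /-- (CTRL-inj), on `p`-torsion -/
  inj : ∀ v : Fin 3 → JZero L, (∀ i, v i ∈ thetaPart L p S θ) → (∀ i, p • v i = 0) →
    iota L l v = 0 → ∀ i, v i = 0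
  /-- (UNIT) -/
  unit : ∀ v ∈ thetaPart L p S θ, p • v = 0 →
    ((l + 1) ^ 2) • v - heckeOperatorBar L ⟨l, hl⟩ (heckeOperatorBar L ⟨l, hl⟩ v) = 0 → v = 0

variable {p : ℕ} [Fact p.Prime] {S : Set ℕ} {θ : ℕ → ℤ}

/-- **(GROW)**, one step. -/
theorem grow_step (hp2 : p ≠ 2) {L l n : ℕ} [NeZero L] [NeZero l]
    (hS : ∀ r : ℕ, r.Prime → r ∉ S → ¬ r ∣ L * l * l * p) (H : GrowIn L l p n S θ) :
    finrank (ZMod p) ↥(WS L p S θ) * ((p - 1) * p ^ (n - 1)) ≤
      finrank (ZMod p) ↥(WS (L * l * l) p S θ) := by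
  have hp : p.Prime := Fact.out
  obtain ⟨A, hA, hsurj, hrho⟩ := H.loc
  haveI : Fact l.Prime := ⟨H.hl⟩
  exact finrank_WS_step (grow_of hp hp2 H.hl H.hlL H.hn H.hdvd H.hex hS hA
    (entries H.hlL hp.ne_zero)
    (thetaPart_divisible L hp.pos S θ) (thetaPart_divisible (L * l * l) hp.pos S θ)
    (fun v hv => WA.exists_Pii_eq_one hp hS H.inj v (fun i => (hv i).1) (fun i => (hv i).2))
    hsurj (fun v hv => H.inj v (fun i => (hv i).1) (fun i => (hv i).2)) hrho H.unit)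

theorem lvl_dvd_lvl_of_le (L₀ : ℕ) (l : ℕ → ℕ) {i j : ℕ} (h : i ≤ j) :
    lvl L₀ l i ∣ lvl L₀ l j := by
  induction j, h using Nat.le_induction with
  | base => exact dvd_rfl
  | succ j _ ih =>
    rw [lvl_succ, mul_assoc]
    exact ih.mul_right _

/-- **(B6)** : `GrowIn` at all the steps of the tower gives `GrowOut` at the top level, `e0 = dim W(L₀)`. -/
theorem growOut_of_growIn (hp2 : p ≠ 2) (L₀ : ℕ) (l : ℕ → ℕ) [NeZero L₀] [∀ i, NeZero (l i)] (r : ℕ)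
    (ν : Fin r → ℕ) (hS : ∀ q : ℕ, q.Prime → q ∉ S → ¬ q ∣ lvl L₀ l r * p)
    (H : ∀ i : Fin r, GrowIn (lvl L₀ l i) (l i) p (ν i) S θ) :
    GrowOut (lvl L₀ l r) p S θ r ν (finrank (ZMod p) ↥(WS L₀ p S θ)) := by
  have h := finrank_WS_iter_fin (p := p) (S := S) (θ := θ) L₀ l
    (fun i => if h : i < r then ν ⟨i, h⟩ else 0) r (fun i hi => by
      rw [dif_pos hi]
      exact grow_step hp2 (fun q hq hqS hdvd => hS q hq hqS
        (hdvd.trans (Nat.mul_dvd_mul_right (lvl_dvd_lvl_of_le L₀ l (j := r) (i := i + 1) hi) p)))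
        (H ⟨i, hi⟩))
  unfold GrowOut
  refine le_of_eq_of_le ?_ h
  congr 1
  exact Finset.prod_congr rfl fun i _ => by rw [dif_pos i.2]

end Fermat.Agent.RIB
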